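import Mathlib.GroupTheory.Sylow
import Mathlib.GroupTheory.Perm.Cycle.Type
import Mathlib.GroupTheory.PGroup
import Mathlib.GroupTheory.SpecificGroups.Alternating
import Mathlib.GroupTheory.SpecificGroups.Dihedral
import Mathlib.GroupTheory.Subgroup.Simple
import Mathlib.NumberTheory.Divisors

/-!
# Recognising the polyhedral groups

A group with a cyclic subgroup of index two outside which all elements are involutions is
dihedral. A group of order `12` or `24` without elements of order `6` is `A₄` resp. `S₄`, by its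
action on the four Sylow `3`-subgroups. A group of order `60` whose element orders are among
`1, 2, 3, 5` is simple by counting classes, has five Sylow `2`-subgroups, and is `A₅`.
-/

set_option autoImplicit false
set_option linter.style.haveILetI false

noncomputable section

open MulAction

namespace FA.Klein

variable {H : Type*} [Group H]

/-- **Recognising dihedral groups.** -/
theorem nonempty_equiv_dihedral {C : Subgroup H} (hC : C.index = 2) [hcyc : IsCyclic C]
    (hout : ∀ h ∉ C, h * h = 1) : Nonempty (H ≃* DihedralGroup (Nat.card C)) := by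
  obtain ⟨s, hs⟩ : ∃ s, s ∉ C := by
    by_contra h
    push Not at h
    have : C = ⊤ := eq_top_iff.2 fun x _ => h x
    simp [this] at hC
  have hss := hout s hs
  have hflip : ∀ c ∈ C, c * s = s * c⁻¹ := fun c hc => by
    have hnot : s * c⁻¹ ∉ C := fun hm => hs <| by simpa using C.mul_mem hm hc
    have h1 := hout _ hnot
    rw [mul_assoc, ← mul_assoc c⁻¹] at h1
    have h2 : s * c⁻¹ = (s * c⁻¹)⁻¹ := eq_inv_of_mul_eq_one_left (hout _ hnot)
    rw [h2, mul_inv_rev, inv_inv, inv_eq_of_mul_eq_one_right hss]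
  set φ : ZMod (Nat.card C) → H := fun i => (zmodCyclicMulEquiv hcyc (Multiplicative.ofAdd i) : H)
  have hφadd : ∀ i j, φ (i + j) = φ i * φ j := fun i j => by simp [φ, ofAdd_add]
  have hφneg : ∀ i, φ (-i) = (φ i)⁻¹ := fun i => by simp [φ, ofAdd_neg]
  have hφmem : ∀ i, φ i ∈ C := fun i => SetLike.coe_mem _
  have hcomm : ∀ i, φ i * s = s * φ (-i) := fun i => by rw [hφneg]; exact hflip _ (hφmem i)
  set f : DihedralGroup (Nat.card C) → H := fun x => match x with
    | DihedralGroup.r i => φ i
    | DihedralGroup.sr i => s * φ i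
  set F : DihedralGroup (Nat.card C) →* H := MonoidHom.mk' f <| by
    rintro (i | i) (j | j)
    · simp only [DihedralGroup.r_mul_r, f, hφadd]
    · simp only [DihedralGroup.r_mul_sr, f]
      rw [← mul_assoc, hcomm, mul_assoc, ← hφadd, neg_add_eq_sub]
    · simp only [DihedralGroup.sr_mul_r, f, hφadd, mul_assoc]
    · simp only [DihedralGroup.sr_mul_sr, f]
      rw [mul_assoc, ← mul_assoc (φ i), hcomm, mul_assoc, ← hφadd, neg_add_eq_sub, ← mul_assoc,
        hss, one_mul]
  refine ⟨(MulEquiv.ofBijective F ⟨?_, fun h => ?_⟩).symm⟩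
  · refine (injective_iff_map_eq_one F).2 fun x hx => ?_
    rcases x with i | i
    · have : Multiplicative.ofAdd i = 1 :=
        (zmodCyclicMulEquiv hcyc).map_eq_one_iff.1 (Subtype.ext hx)
      rw [show i = 0 from this, DihedralGroup.r_zero]
    · exact absurd (eq_inv_of_mul_eq_one_left hx ▸ C.inv_mem (hφmem i)) hs
  · by_cases hh : h ∈ C
    · refine ⟨.r (Multiplicative.toAdd ((zmodCyclicMulEquiv hcyc).symm ⟨h, hh⟩)), ?_⟩
      simp [F, f, φ]
    · have hm : s * h ∈ C := (Subgroup.mul_mem_iff_of_index_two hC).2 (iff_of_false hs hh)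
      refine ⟨.sr (Multiplicative.toAdd ((zmodCyclicMulEquiv hcyc).symm ⟨s * h, hm⟩)), ?_⟩
      simp [F, f, φ, ← mul_assoc, hss]

/-- The index of a centraliser is the size of the class. -/
theorem index_centralizer_singleton (x : H) :
    (Subgroup.centralizer ({x} : Set H)).index = (Set.range fun h : H => h * x * h⁻¹).ncard := by
  rw [← Nat.card_coe_set_eq, Subgroup.index]
  refine Nat.card_congr ((Quotient.congrRight fun a b => ?_).trans
    (Setoid.quotientKerEquivRange _))
  rw [QuotientGroup.leftRel_apply, Subgroup.mem_centralizer_singleton_iff, Setoid.ker_def]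
  constructor <;> intro h
  · rw [mul_assoc, inv_mul_eq_iff_eq_mul] at h
    show a * x * a⁻¹ = b * x * b⁻¹
    rw [eq_mul_inv_iff_mul_eq, mul_assoc, h]
    group
  · rw [mul_assoc, inv_mul_eq_iff_eq_mul]
    replace h : a * x * a⁻¹ * b = b * x := eq_mul_inv_iff_mul_eq.1 h
    rw [← h]
    group

variable [Finite H]

set_option linter.unusedSectionVars false

/-- An element of order `p` commuting with one of order `q`. -/
theorem exists_orderOf_mul {x : H} {p q : ℕ} [Fact q.Prime] (hx : orderOf x = p)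
    (hq : q ∣ Nat.card (Subgroup.centralizer ({x} : Set H))) (hpq : p.Coprime q) :
    ∃ y : H, orderOf y = p * q := by
  obtain ⟨t, ht⟩ := exists_prime_orderOf_dvd_card' q hq
  rw [← Subgroup.orderOf_coe] at ht
  have hc : Commute x t := (Subgroup.mem_centralizer_singleton_iff.1 t.2).symm
  exact ⟨x * t, by
    rw [hc.orderOf_mul_eq_mul_orderOf_of_coprime (by rw [hx, ht]; exact hpq), hx, ht]⟩

/-- The order of a Sylow subgroup. -/
theorem sylow_card {p k m : ℕ} [hp : Fact p.Prime] (P : Sylow p H)
    (hN : Nat.card H = p ^ k * m) (hm : ¬p ∣ m) : Nat.card P = p ^ k := by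
  refine Nat.dvd_antisymm ?_ (P.pow_dvd_card_of_pow_dvd_card (hN ▸ dvd_mul_right _ _))
  obtain ⟨j, hj⟩ := IsPGroup.iff_card.1 P.2
  rw [hj]
  exact ((hp.out.coprime_iff_not_dvd.2 hm).pow_left j).dvd_of_dvd_mul_right
    (hN ▸ hj ▸ P.1.card_subgroup_dvd_card)

/-- **Orders 12 and 24**: a faithful action on four Sylow `3`-subgroups. -/
theorem exists_hom_perm_four (hN : Nat.card H = 12 ∨ Nat.card H = 24)
    (h6 : ∀ h : H, orderOf h ≠ 6) :
    ∃ f : H →* Equiv.Perm (Fin 4), Function.Injective f := by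
  haveI : Fact (Nat.Prime 2) := ⟨Nat.prime_two⟩
  haveI : Fact (Nat.Prime 3) := ⟨Nat.prime_three⟩
  have hP3 : ∀ P : Sylow 3 H, Nat.card P = 3 := fun P => by
    rcases hN with h | h
    · exact (sylow_card P (k := 1) (m := 4) h (by norm_num)).trans (pow_one 3)
    · exact (sylow_card P (k := 1) (m := 8) h (by norm_num)).trans (pow_one 3)
  obtain ⟨P⟩ : Nonempty (Sylow 3 H) := inferInstance
  have hodd : ∀ x : H, orderOf x = 3 → ¬ 2 ∣ Nat.card (Subgroup.centralizer ({x} : Set H)) :=
    fun x hx h2 => by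
      obtain ⟨y, hy⟩ := exists_orderOf_mul hx h2 (by norm_num)
      exact h6 y hy
  obtain ⟨⟨x, hxP⟩, hx⟩ := exists_prime_orderOf_dvd_card' (G := P) 3 (by rw [hP3])
  rw [Subgroup.orderOf_mk] at hx
  have hn1 : Nat.card (Sylow 3 H) ≠ 1 := fun h1 => by
    haveI := (Nat.card_eq_one_iff_unique.1 h1).1
    have hnorm : (P : Subgroup H).Normal := P.normal_of_subsingleton
    have hsub : Set.range (fun h : H => h * x * h⁻¹) ⊆ ((P : Subgroup H) : Set H) \ {1} := by
      rintro _ ⟨h, rfl⟩
      refine ⟨hnorm.conj_mem x hxP h, fun h' => ?_⟩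
      rw [conj_eq_one_iff.1 h', orderOf_one] at hx
      omega
    have hle := Set.ncard_le_ncard hsub (Set.toFinite _)
    rw [← index_centralizer_singleton, Set.ncard_sdiff_singleton_of_mem P.one_mem] at hle
    have h3 : ((P : Subgroup H) : Set H).ncard = 3 := (Nat.card_coe_set_eq _).symm.trans (hP3 P)
    have hmul := (Subgroup.centralizer ({x} : Set H)).index_mul_card
    refine hodd x hx ?_
    have hpos : (Subgroup.centralizer ({x} : Set H)).index ≠ 0 := Subgroup.index_ne_zero_of_finite
    have hle' : (Subgroup.centralizer ({x} : Set H)).index ≤ 2 := by rw [h3] at hle; exact hle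
    interval_cases hi : (Subgroup.centralizer ({x} : Set H)).index <;> omega
  have hn : Nat.card (Sylow 3 H) = 4 := by
    have hd := P.card_dvd_index
    have hmul := (P : Subgroup H).index_mul_card
    rw [hP3] at hmul
    have hmod := card_sylow_modEq_one 3 H
    rw [Nat.ModEq] at hmod
    have := Nat.le_of_dvd (Nat.pos_of_ne_zero Subgroup.index_ne_zero_of_finite) hd
    have hcases : (P : Subgroup H).index = 4 ∨ (P : Subgroup H).index = 8 := by omega
    rcases hcases with e | e <;> rw [e] at hd this <;>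
      interval_cases Nat.card (Sylow 3 H) <;> omega
  set φ := MulAction.toPermHom H (Sylow 3 H)
  have hfix : ∀ h ∈ φ.ker, ∀ Q : Sylow 3 H, h • Q = Q := fun h hh Q =>
    Equiv.ext_iff.1 (MonoidHom.mem_ker.1 hh) Q
  have hker : φ.ker = ⊥ := by
    have hd : Nat.card φ.ker ∣ 6 := by
      have hle : φ.ker ≤ Subgroup.normalizer (P : Set H) := fun h hh =>
        Sylow.smul_eq_iff_mem_normalizer.1 (hfix h hh P)
      have hmul := (Subgroup.normalizer (P : Set H)).index_mul_card
      rw [← P.card_eq_index_normalizer, hn] at hmul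
      refine (Subgroup.card_dvd_of_le hle).trans ?_
      rcases hN with h | h
      · exact Dvd.intro 2 (by omega)
      · exact dvd_of_eq (by omega)
    have h3 : ¬ 3 ∣ Nat.card φ.ker := fun h => by
      obtain ⟨⟨y, hyk⟩, hy⟩ := exists_prime_orderOf_dvd_card' 3 h
      rw [Subgroup.orderOf_mk] at hy
      have hz : ∀ Q : Sylow 3 H, Subgroup.zpowers y = (Q : Subgroup H) := fun Q => by
        have hpg : IsPGroup 3 (Subgroup.zpowers y) :=
          IsPGroup.of_card (n := 1) (by rw [Nat.card_zpowers, hy, pow_one])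
        refine Subgroup.eq_of_le_of_card_ge (hpg.sylow_mem_fixedPoints_iff.1 fun g => ?_)
          (by rw [hP3, Nat.card_zpowers, hy])
        exact hfix g (Subgroup.zpowers_le.2 hyk g.2) Q
      refine hn1 (Nat.card_eq_one_iff_unique.2 ⟨⟨fun Q Q' => Sylow.ext ?_⟩, inferInstance⟩)
      rw [← hz Q, ← hz Q']
    rw [← Subgroup.card_eq_one]
    have hle := Nat.le_of_dvd (by omega) hd
    have hpos : 0 < Nat.card φ.ker := Nat.card_pos
    obtain hk | hk : Nat.card φ.ker = 1 ∨ Nat.card φ.ker = 2 := by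
      interval_cases Nat.card φ.ker <;> omega
    · exact hk
    exfalso
    obtain ⟨⟨z, hzk⟩, hz⟩ := exists_prime_orderOf_dvd_card' (G := φ.ker) 2 (by rw [hk])
    rw [Subgroup.orderOf_mk] at hz
    have hmem : x * z * x⁻¹ ∈ φ.ker := (MonoidHom.normal_ker φ).conj_mem z hzk x
    obtain ⟨a, b, hab, huniv⟩ :=
      Set.ncard_eq_two.1 ((Nat.card_coe_set_eq (φ.ker : Set H)).symm.trans hk)
    have hone : (1 : H) ∈ (φ.ker : Set H) := φ.ker.one_mem
    have hxz : x * z * x⁻¹ = z := by
      have h1 : z ≠ 1 := fun e => by rw [e, orderOf_one] at hz; omega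
      have h2 : x * z * x⁻¹ ≠ 1 := fun e => h1 (conj_eq_one_iff.1 e)
      rw [huniv] at hone
      have h3 : z ∈ ({a, b} : Set H) := huniv ▸ hzk
      have h4 : x * z * x⁻¹ ∈ ({a, b} : Set H) := huniv ▸ hmem
      simp only [Set.mem_insert_iff, Set.mem_singleton_iff] at hone h3 h4
      grind
    refine hodd x hx ?_
    rw [← hz, ← Subgroup.orderOf_mk z (H := Subgroup.centralizer ({x} : Set H))
      (Subgroup.mem_centralizer_singleton_iff.2 (mul_inv_eq_iff_eq_mul.1 hxz).symm)]
    exact orderOf_dvd_natCard _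
  exact ⟨((Finite.equivFinOfCardEq hn).permCongrHom : _ →* _).comp φ,
    (Finite.equivFinOfCardEq hn).permCongrHom.injective.comp (φ.ker_eq_bot_iff.1 hker)⟩

/-- A group embedded in `Perm α` as a subgroup of index two is the alternating group. -/
theorem nonempty_equiv_alternating {α : Type*} [Fintype α] [DecidableEq α]
    (f : H →* Equiv.Perm α) (hf : Function.Injective f)
    (h : 2 * Nat.card H = (Fintype.card α).factorial) : Nonempty (H ≃* alternatingGroup α) := by
  have hi : f.range.index = 2 := by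
    have := f.range.index_mul_card
    rw [← Nat.card_congr (MonoidHom.ofInjective hf).toEquiv, Nat.card_perm,
      Nat.card_eq_fintype_card (α := α), ← h] at this
    exact Nat.eq_of_mul_eq_mul_right Nat.card_pos this
  exact ⟨(MonoidHom.ofInjective hf).trans
    (MulEquiv.subgroupCongr (Equiv.Perm.eq_alternatingGroup_of_index_eq_two hi))⟩

/-- **Order 12.** -/
theorem nonempty_equiv_alternating_four (hN : Nat.card H = 12) (h6 : ∀ h : H, orderOf h ≠ 6) :
    Nonempty (H ≃* alternatingGroup (Fin 4)) := by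
  obtain ⟨f, hf⟩ := exists_hom_perm_four (Or.inl hN) h6
  exact nonempty_equiv_alternating f hf (by rw [hN, Fintype.card_fin]; rfl)

/-- **Order 24.** -/
theorem nonempty_equiv_perm_four (hN : Nat.card H = 24) (h6 : ∀ h : H, orderOf h ≠ 6) :
    Nonempty (H ≃* Equiv.Perm (Fin 4)) := by
  obtain ⟨f, hf⟩ := exists_hom_perm_four (Or.inr hN) h6
  exact ⟨MulEquiv.ofBijective f ((Nat.bijective_iff_injective_and_card f).2
    ⟨hf, by rw [hN, Nat.card_perm, Nat.card_fin]; rfl⟩)⟩

/-- The size of a class of elements of order `p` in the icosahedral case. -/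
def icosaClass (p : ℕ) : ℕ := if p = 2 then 15 else 60 / p

/-- The centralisers in the icosahedral case. -/
theorem icosahedral_centralizer (hN : Nat.card H = 60)
    (hord : ∀ h : H, orderOf h ∈ ({1, 2, 3, 5} : Finset ℕ)) {x : H} (hx : x ≠ 1) :
    Nat.card (Subgroup.centralizer ({x} : Set H)) = if orderOf x = 2 then 4 else orderOf x := by
  haveI : Fact (Nat.Prime 2) := ⟨Nat.prime_two⟩
  haveI : Fact (Nat.Prime 3) := ⟨Nat.prime_three⟩
  haveI : Fact (Nat.Prime 5) := ⟨Nat.prime_five⟩
  set d := Nat.card (Subgroup.centralizer ({x} : Set H))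
  have hd : d ∈ Nat.divisors 60 :=
    Nat.mem_divisors.2 ⟨hN ▸ Subgroup.card_subgroup_dvd_card _, by norm_num⟩
  have hxd : orderOf x ∣ d :=
    Subgroup.orderOf_mk x (Subgroup.mem_centralizer_singleton_iff.2 rfl) ▸ orderOf_dvd_natCard _
  have hno : ∀ q : ℕ, [Fact q.Prime] → (orderOf x).Coprime q →
      orderOf x * q ∉ ({1, 2, 3, 5} : Finset ℕ) → ¬ q ∣ d := fun q _ hc hn hq => by
    obtain ⟨y, hy⟩ := exists_orderOf_mul rfl hq hc
    exact hn (hy ▸ hord y)
  have h1 : orderOf x ≠ 1 := fun h => hx (orderOf_eq_one_iff.1 h)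
  have hox := hord x
  simp only [Finset.mem_insert, Finset.mem_singleton] at hox
  rcases hox with h | h | h | h
  · exact absurd h h1
  · rw [h] at hno hxd ⊢
    have h4 : 4 ∣ d := by
      obtain ⟨Q, hQ⟩ := IsPGroup.exists_le_sylow
        (IsPGroup.of_card (n := 1) (by rw [Nat.card_zpowers, h, pow_one]) :
          IsPGroup 2 (Subgroup.zpowers x))
      have hQ4 : Nat.card Q = 2 ^ 2 := sylow_card Q (m := 15) hN (by norm_num)
      have hle : (Q : Subgroup H) ≤ Subgroup.centralizer ({x} : Set H) := fun y hy =>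
        Subgroup.mem_centralizer_singleton_iff.2 <| congrArg Subtype.val <|
          (IsPGroup.isMulCommutative_of_card_eq_prime_sq hQ4).is_comm.comm ⟨y, hy⟩
            ⟨x, hQ (Subgroup.mem_zpowers x)⟩
      exact (dvd_of_eq (hQ4.trans (by norm_num)).symm).trans (Subgroup.card_dvd_of_le hle)
    exact (by decide : ∀ d ∈ Nat.divisors 60, 4 ∣ d → ¬3 ∣ d → ¬5 ∣ d → d = 4) d hd h4
      (hno 3 (by norm_num) (by decide)) (hno 5 (by norm_num) (by decide))
  · rw [h] at hno hxd ⊢
    exact (by decide : ∀ d ∈ Nat.divisors 60, 3 ∣ d → ¬2 ∣ d → ¬5 ∣ d → d = 3) d hd hxd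
      (hno 2 (by norm_num) (by decide)) (hno 5 (by norm_num) (by decide))
  · rw [h] at hno hxd ⊢
    exact (by decide : ∀ d ∈ Nat.divisors 60, 5 ∣ d → ¬2 ∣ d → ¬3 ∣ d → d = 5) d hd hxd
      (hno 2 (by norm_num) (by decide)) (hno 3 (by norm_num) (by decide))

/-- The classes in the icosahedral case. -/
theorem icosahedral_class (hN : Nat.card H = 60)
    (hord : ∀ h : H, orderOf h ∈ ({1, 2, 3, 5} : Finset ℕ)) {x : H} (hx : x ≠ 1) :
    (Set.range fun h : H => h * x * h⁻¹).ncard = icosaClass (orderOf x) := by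
  have hmul := (Subgroup.centralizer ({x} : Set H)).index_mul_card
  rw [index_centralizer_singleton, icosahedral_centralizer hN hord hx, hN] at hmul
  have hox := hord x
  simp only [Finset.mem_insert, Finset.mem_singleton] at hox
  have h1 : orderOf x ≠ 1 := fun h => hx (orderOf_eq_one_iff.1 h)
  unfold icosaClass
  rcases hox with h | h | h | h <;> simp [h] at hmul ⊢ <;> omega

/-- **The icosahedral case is simple.** -/
theorem isSimpleGroup_sixty (hN : Nat.card H = 60)
    (hord : ∀ h : H, orderOf h ∈ ({1, 2, 3, 5} : Finset ℕ)) : IsSimpleGroup H := by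
  classical
  haveI := Fintype.ofFinite H
  haveI : Nontrivial H := Finite.one_lt_card_iff_nontrivial.1 (by omega)
  refine ⟨fun M hM => ?_⟩
  set S := ({2, 3, 5} : Finset ℕ).filter (· ∣ Nat.card M)
  have hex : ∀ p ∈ S, ∃ x : H, x ∈ M ∧ orderOf x = p := fun p hp => by
    obtain ⟨hp1, hp2⟩ := Finset.mem_filter.1 hp
    haveI : Fact p.Prime := ⟨by fin_cases hp1 <;> decide⟩
    obtain ⟨⟨x, hxM⟩, hx⟩ := exists_prime_orderOf_dvd_card' p hp2
    exact ⟨x, hxM, by rwa [Subgroup.orderOf_mk] at hx⟩
  choose! x hxM hxp using hex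
  set T : Finset H := S.biUnion fun p => (Set.range fun h : H => h * x p * h⁻¹).toFinset
  have hT : ∀ y ∈ T, y ∈ M ∧ y ≠ 1 := fun y hy => by
    obtain ⟨p, hp, hy⟩ := Finset.mem_biUnion.1 hy
    obtain ⟨g, rfl⟩ := Set.mem_toFinset.1 hy
    refine ⟨hM.conj_mem _ (hxM p hp) g, fun h => ?_⟩
    have := hxp p hp
    rw [conj_eq_one_iff.1 h, orderOf_one] at this
    subst this
    simp [S] at hp
  have hcard : T.card = ∑ p ∈ S, icosaClass p := by
    rw [Finset.card_biUnion fun p hp q hq hpq => Finset.disjoint_left.2 fun y hy hy' => hpq ?_]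
    · refine Finset.sum_congr rfl fun p hp => ?_
      rw [← Set.ncard_eq_toFinset_card', icosahedral_class hN hord (fun h => ?_), hxp p hp]
      have := hxp p hp
      rw [h, orderOf_one] at this
      subst this
      simp [S] at hp
    · obtain ⟨g, rfl⟩ := Set.mem_toFinset.1 hy
      obtain ⟨g', hg'⟩ := Set.mem_toFinset.1 hy'
      have := congrArg orderOf hg'
      simp only [← MulAut.conj_apply, MulEquiv.orderOf_eq, hxp p hp, hxp q hq] at this
      exact this.symm
  have hle : T.card + 1 ≤ Nat.card M := by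
    have h1 : (insert 1 T : Finset H) ⊆ (M : Set H).toFinset := fun y hy => by
      rcases Finset.mem_insert.1 hy with rfl | hy
      · exact Set.mem_toFinset.2 M.one_mem
      · exact Set.mem_toFinset.2 (hT y hy).1
    have := Finset.card_le_card h1
    rw [Finset.card_insert_of_notMem fun h => (hT 1 h).2 rfl, ← Set.ncard_eq_toFinset_card',
      ← Nat.card_coe_set_eq] at this
    exact this
  have key : ∀ d ∈ Nat.divisors 60,
      (∑ p ∈ ({2, 3, 5} : Finset ℕ).filter (· ∣ d), icosaClass p) + 1 ≤ d → d = 1 ∨ d = 60 := by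
    decide
  rcases key _ (Nat.mem_divisors.2 ⟨hN ▸ M.card_subgroup_dvd_card, by norm_num⟩)
    (hcard ▸ hle) with h | h
  · exact Or.inl (Subgroup.card_eq_one.1 h)
  · exact Or.inr (Subgroup.eq_top_of_card_eq M (h.trans hN.symm))

/-- **Order 60.** -/
theorem nonempty_equiv_alternating_five (hN : Nat.card H = 60)
    (hord : ∀ h : H, orderOf h ∈ ({1, 2, 3, 5} : Finset ℕ)) :
    Nonempty (H ≃* alternatingGroup (Fin 5)) := by
  classical
  haveI := Fintype.ofFinite H
  haveI : Fact (Nat.Prime 2) := ⟨Nat.prime_two⟩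
  haveI : Fact (Nat.Prime 3) := ⟨Nat.prime_three⟩
  haveI := isSimpleGroup_sixty hN hord
  have hP4 : ∀ P : Sylow 2 H, Nat.card P = 2 ^ 2 := fun P =>
    sylow_card P (m := 15) hN (by norm_num)
  obtain ⟨P⟩ : Nonempty (Sylow 2 H) := inferInstance
  haveI := Fintype.ofFinite (Sylow 2 H)
  have hinj : Nat.card (Sylow 2 H) ≠ 1 →
      Function.Injective (MulAction.toPermHom H (Sylow 2 H)) := fun h1 => by
    refine (MonoidHom.ker_eq_bot_iff _).1 (((MonoidHom.normal_ker _).eq_bot_or_eq_top).resolve_right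
      fun htop => h1 (Nat.card_eq_one_iff_unique.2 ⟨⟨fun Q Q' => ?_⟩, inferInstance⟩))
    obtain ⟨g, rfl⟩ := MulAction.exists_smul_eq H Q Q'
    have hg : g ∈ (MulAction.toPermHom H (Sylow 2 H)).ker := by rw [htop]; trivial
    exact (Equiv.ext_iff.1 (MonoidHom.mem_ker.1 hg) Q).symm
  have hn1 : Nat.card (Sylow 2 H) ≠ 1 := fun h1 => by
    haveI := (Nat.card_eq_one_iff_unique.1 h1).1
    rcases P.normal_of_subsingleton.eq_bot_or_eq_top with h | h
    · have := hP4 P; rw [h, Subgroup.card_bot] at this; omega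
    · have := hP4 P; rw [h, Subgroup.card_top, hN] at this; omega
  have hn3 : Nat.card (Sylow 2 H) ≠ 3 := fun h3 => by
    have := Nat.card_le_card_of_injective _ (hinj hn1)
    rw [hN, Nat.card_perm, h3] at this
    norm_num [Nat.factorial] at this
  have hn15 : Nat.card (Sylow 2 H) ≠ 15 := fun h15 => by
    have htwo : ∀ (Q : Sylow 2 H) y, y ∈ Q → y ≠ 1 → orderOf y = 2 := fun Q y hy hy1 => by
      have h1 : orderOf y ∣ 2 ^ 2 := hP4 Q ▸ Subgroup.orderOf_dvd_natCard _ hy
      have h2 := hord y
      have h3 : orderOf y ≠ 1 := fun h => hy1 (orderOf_eq_one_iff.1 h)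
      simp only [Finset.mem_insert, Finset.mem_singleton] at h2
      rcases h2 with h | h | h | h <;> simp_all
    have huniq : ∀ (Q Q' : Sylow 2 H) y, y ∈ Q → y ∈ Q' → y ≠ 1 → Q = Q' :=
      fun Q Q' y hy hy' h1 => by
      have hc : Nat.card (Subgroup.centralizer ({y} : Set H)) = 4 := by
        rw [icosahedral_centralizer hN hord h1, if_pos (htwo Q y hy h1)]
      have key : ∀ R : Sylow 2 H, y ∈ R →
          (R : Subgroup H) = Subgroup.centralizer ({y} : Set H) := fun R hR => by
        refine Subgroup.eq_of_le_of_card_ge (fun z hz => ?_) (by rw [hc, hP4]; norm_num)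
        exact Subgroup.mem_centralizer_singleton_iff.2 (congrArg Subtype.val
          ((IsPGroup.isMulCommutative_of_card_eq_prime_sq (hP4 R)).is_comm.comm ⟨z, hz⟩ ⟨y, hR⟩))
      exact Sylow.ext ((key Q hy).trans (key Q' hy').symm)
    set A : Finset H :=
      Finset.univ.biUnion fun Q : Sylow 2 H => (Q : Set H).toFinset.erase 1
    have hA : A.card = 45 := by
      rw [Finset.card_biUnion fun Q _ Q' _ hne => Finset.disjoint_left.2 fun y hy hy' =>
        hne (huniq Q Q' y (Set.mem_toFinset.1 (Finset.mem_of_mem_erase hy))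
          (Set.mem_toFinset.1 (Finset.mem_of_mem_erase hy')) (Finset.ne_of_mem_erase hy))]
      have : ∀ Q : Sylow 2 H, ((Q : Set H).toFinset.erase 1).card = 3 := fun Q => by
        rw [Finset.card_erase_of_mem (Set.mem_toFinset.2
          (show (1 : H) ∈ (Q : Set H) from Q.one_mem)), ← Set.ncard_eq_toFinset_card',
          ← Nat.card_coe_set_eq]
        exact congrArg (· - 1) (hP4 Q)
      rw [Finset.sum_congr rfl fun Q _ => this Q, Finset.sum_const, Finset.card_univ,
        ← Nat.card_eq_fintype_card, h15, smul_eq_mul]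
    obtain ⟨x, hx⟩ := exists_prime_orderOf_dvd_card' (G := H) 3 (by rw [hN]; norm_num)
    have hB := icosahedral_class hN hord (x := x) (fun h => by rw [h, orderOf_one] at hx; omega)
    rw [hx, icosaClass, if_neg (by norm_num), Set.ncard_eq_toFinset_card'] at hB
    have hdisj : Disjoint A (Set.range fun h : H => h * x * h⁻¹).toFinset :=
      Finset.disjoint_left.2 fun y hy hy' => by
        obtain ⟨Q, -, hy⟩ := Finset.mem_biUnion.1 hy
        obtain ⟨g, rfl⟩ := Set.mem_toFinset.1 hy'
        have := htwo Q _ (Set.mem_toFinset.1 (Finset.mem_of_mem_erase hy))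
          (Finset.ne_of_mem_erase hy)
        simp only [← MulAut.conj_apply, MulEquiv.orderOf_eq, hx] at this
        omega
    have := (Finset.card_union_of_disjoint hdisj).symm.trans_le (Finset.card_le_univ _)
    rw [hA, hB, ← Nat.card_eq_fintype_card, hN] at this
    omega
  have hn5 : Nat.card (Sylow 2 H) = 5 := by
    have hd := P.card_dvd_index
    have hmul := (P : Subgroup H).index_mul_card
    rw [hP4, hN] at hmul
    have : (P : Subgroup H).index = 15 := by omega
    rw [this] at hd
    have hmem : Nat.card (Sylow 2 H) ∈ Nat.divisors 15 := Nat.mem_divisors.2 ⟨hd, by norm_num⟩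
    exact (by decide : ∀ n ∈ Nat.divisors 15, n ≠ 1 → n ≠ 3 → n ≠ 15 → n = 5) _ hmem hn1 hn3 hn15
  refine nonempty_equiv_alternating
    ((Finite.equivFinOfCardEq hn5).permCongrHom.toMonoidHom.comp
      (MulAction.toPermHom H (Sylow 2 H)))
    ((Finite.equivFinOfCardEq hn5).permCongrHom.injective.comp (hinj hn1)) ?_
  rw [hN, Fintype.card_fin]
  rfl

end FA.Klein

end
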