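import Mathlib.GroupTheory.GroupAction.Quotient
import Mathlib.GroupTheory.GroupAction.SubMulAction
import Mathlib.GroupTheory.Index
import Mathlib.GroupTheory.OrderOfElement
import Mathlib.GroupTheory.SpecificGroups.Cyclic

/-!
# Finite groups in which every non-trivial element has two fixed points

Let a finite group `H` act on a set so that every `h ≠ 1` fixes exactly two points and point
stabilisers are cyclic. By Burnside's lemma on the set of points with non-trivial stabiliser there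
are at most three orbits there, and `H` is cyclic, or has a cyclic subgroup of index two with all
other elements involutions, or has one of the orders `12`, `24`, `60` with few element orders.
-/

set_option autoImplicit false
set_option linter.style.haveILetI false

noncomputable section

open MulAction

namespace FA.Klein

/-- The solutions of `n₁ + n₂ + n₃ = N + 2` with `nᵢ eᵢ = N`, `2 ≤ e₁ ≤ e₂ ≤ e₃`. -/
theorem triple_sorted {N n₁ n₂ n₃ e₁ e₂ e₃ : ℕ} (h₁ : n₁ * e₁ = N) (h₂ : n₂ * e₂ = N)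
    (h₃ : n₃ * e₃ = N) (he : 2 ≤ e₁) (h12 : e₁ ≤ e₂) (h23 : e₂ ≤ e₃)
    (hs : n₁ + n₂ + n₃ = N + 2) :
    n₃ = 2 ∨ e₁ = 2 ∧ e₂ = 3 ∧ (e₃ = 3 ∧ N = 12 ∨ e₃ = 4 ∧ N = 24 ∨ e₃ = 5 ∧ N = 60) := by
  have a1 : e₁ = 2 := by
    by_contra h
    have := Nat.mul_le_mul_left n₁ (show 3 ≤ e₁ by omega)
    have := Nat.mul_le_mul_left n₂ (show 3 ≤ e₂ by omega)
    have := Nat.mul_le_mul_left n₃ (show 3 ≤ e₃ by omega)
    omega
  subst a1
  have a2 : e₂ ≤ 3 := by
    by_contra h
    have := Nat.mul_le_mul_left n₂ (show 4 ≤ e₂ by omega)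
    have := Nat.mul_le_mul_left n₃ (show 4 ≤ e₃ by omega)
    omega
  interval_cases e₂
  · exact Or.inl (by omega)
  · refine Or.inr ⟨rfl, rfl, ?_⟩
    have a3 : e₃ ≤ 5 := by
      by_contra h
      have := Nat.mul_le_mul_left n₃ (show 6 ≤ e₃ by omega)
      omega
    interval_cases e₃ <;> omega

/-- The solutions of `n₁ + n₂ + n₃ = N + 2` with `nᵢ eᵢ = N`, `2 ≤ eᵢ`. -/
theorem triple {N n₁ n₂ n₃ e₁ e₂ e₃ : ℕ} (h₁ : n₁ * e₁ = N) (h₂ : n₂ * e₂ = N)
    (h₃ : n₃ * e₃ = N) (g₁ : 2 ≤ e₁) (g₂ : 2 ≤ e₂) (g₃ : 2 ≤ e₃) (hs : n₁ + n₂ + n₃ = N + 2)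
    (m₁ : n₁ ≠ 2) (m₂ : n₂ ≠ 2) (m₃ : n₃ ≠ 2) {e : ℕ} (he : e = e₁ ∨ e = e₂ ∨ e = e₃) :
    N = 12 ∧ e ≤ 3 ∨ N = 24 ∧ e ≤ 4 ∨ N = 60 ∧ (e ≤ 3 ∨ e = 5) := by
  have key : ∀ a b c : ℕ, a = 2 ∧ b = 3 ∧ (c = 3 ∧ N = 12 ∨ c = 4 ∧ N = 24 ∨ c = 5 ∧ N = 60) →
      e = a ∨ e = b ∨ e = c →
      N = 12 ∧ e ≤ 3 ∨ N = 24 ∧ e ≤ 4 ∨ N = 60 ∧ (e ≤ 3 ∨ e = 5) := by
    rintro a b c ⟨rfl, rfl, hc⟩ hk
    omega
  have t132 : n₁ + n₃ + n₂ = N + 2 := by omega
  have t213 : n₂ + n₁ + n₃ = N + 2 := by omega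
  have t231 : n₂ + n₃ + n₁ = N + 2 := by omega
  have t312 : n₃ + n₁ + n₂ = N + 2 := by omega
  have t321 : n₃ + n₂ + n₁ = N + 2 := by omega
  rcases le_total e₁ e₂ with a | a <;> rcases le_total e₁ e₃ with b | b <;>
    rcases le_total e₂ e₃ with c | c
  · exact key _ _ _ ((triple_sorted h₁ h₂ h₃ g₁ a c hs).resolve_left m₃) he
  · exact key _ _ _ ((triple_sorted h₁ h₃ h₂ g₁ b c t132).resolve_left m₂) (by tauto)
  · exact key _ _ _ ((triple_sorted h₁ h₂ h₃ g₁ a c hs).resolve_left m₃) he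
  · exact key _ _ _ ((triple_sorted h₃ h₁ h₂ g₃ b a t312).resolve_left m₂) (by tauto)
  · exact key _ _ _ ((triple_sorted h₂ h₁ h₃ g₂ a b t213).resolve_left m₃) (by tauto)
  · exact key _ _ _ ((triple_sorted h₁ h₂ h₃ g₁ (b.trans c) (a.trans b) hs).resolve_left m₃) he
  · exact key _ _ _ ((triple_sorted h₂ h₃ h₁ g₂ c b t231).resolve_left m₁) (by tauto)
  · exact key _ _ _ ((triple_sorted h₃ h₂ h₁ g₃ c a t321).resolve_left m₁) (by tauto)

variable {H X : Type*} [Group H] [MulAction H X]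

/-- A stabiliser of index two: the elements outside are involutions. -/
theorem mul_self_eq_one_of_index_two (hfix : ∀ h : H, h ≠ 1 → (fixedBy X h).ncard = 2) {x : X}
    (hx : (stabilizer H x).index = 2) {h : H} (hh : h ∉ stabilizer H x) : h * h = 1 := by
  obtain ⟨y, hy, heq⟩ : ∃ y, y ≠ x ∧ ∀ z ∈ orbit H x, z = x ∨ z = y := by
    rw [index_stabilizer] at hx
    obtain ⟨a, b, hab, he⟩ := Set.ncard_eq_two.1 hx
    have hmem := mem_orbit_self (M := H) x
    rw [he] at hmem ⊢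
    rcases hmem with rfl | rfl
    · exact ⟨b, hab.symm, fun z hz => hz⟩
    · exact ⟨a, hab, fun z hz => hz.symm⟩
  have hxy : h • x = y := (heq _ (mem_orbit x h)).resolve_left fun he => hh he
  have hyx : h • y = x := (heq _ (hxy ▸ smul_smul h h x ▸ mem_orbit x (h * h))).resolve_right
    fun he => hy ((smul_left_cancel h (hxy.trans he.symm)).symm)
  by_contra hne
  have hh1 : h ≠ 1 := fun e => hh (e ▸ (stabilizer H x).one_mem)
  obtain ⟨u, v, huv, huv'⟩ := Set.ncard_eq_two.1 (hfix h hh1)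
  have hu : h • u = u := mem_fixedBy.1 (huv' ▸ Set.mem_insert _ _)
  have hv : h • v = v := mem_fixedBy.1 (huv' ▸ Set.mem_insert_of_mem _ (Set.mem_singleton _))
  have hux : u ≠ x := fun e => hh (mem_stabilizer_iff.2 (e ▸ hu))
  have hvx : v ≠ x := fun e => hh (mem_stabilizer_iff.2 (e ▸ hv))
  have hfin : (fixedBy X (h * h)).Finite := Set.finite_of_ncard_ne_zero (by rw [hfix _ hne]; omega)
  have hsub : ({u, v, x} : Set X) ⊆ fixedBy X (h * h) := by
    rintro z (rfl | rfl | rfl) <;> rw [mem_fixedBy, mul_smul]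
    · rw [hu, hu]
    · rw [hv, hv]
    · rw [hxy, hyx]
  have := Set.ncard_le_ncard hsub hfin
  rw [hfix _ hne, Set.ncard_eq_three.2 ⟨u, v, x, huv, hux, hvx, rfl⟩] at this
  omega

/-- The points with non-trivial stabiliser. -/
def polarPoints (H X : Type*) [Group H] [MulAction H X] : SubMulAction H X where
  carrier := {x | ∃ h : H, h ≠ 1 ∧ h • x = x}
  smul_mem' g x := fun ⟨h, h1, hx⟩ =>
    ⟨g * h * g⁻¹, fun e => h1 (conj_eq_one_iff.1 e), by
      rw [smul_smul, inv_mul_cancel_right, mul_smul, hx]⟩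

/-- **The possible groups** with two fixed points for every non-trivial element. -/
theorem polar_cases [Finite H] (hfix : ∀ h : H, h ≠ 1 → (fixedBy X h).ncard = 2)
    (hstab : ∀ x : X, IsCyclic (stabilizer H x)) :
    IsCyclic H ∨ (∃ C : Subgroup H, C.index = 2 ∧ IsCyclic C ∧ ∀ h ∉ C, h * h = 1) ∨
      ((Nat.card H = 12 ∨ Nat.card H = 24) ∧ ∀ h : H, orderOf h ≠ 6) ∨
      (Nat.card H = 60 ∧ ∀ h : H, orderOf h ∈ ({1, 2, 3, 5} : Finset ℕ)) := by
  classical
  haveI := Fintype.ofFinite H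
  by_cases htop : ∃ x : X, stabilizer H x = ⊤
  · obtain ⟨x, hx⟩ := htop
    haveI := hstab x
    exact Or.inl (isCyclic_of_surjective (stabilizer H x).subtype fun g =>
      ⟨⟨g, hx ▸ Subgroup.mem_top g⟩, rfl⟩)
  by_cases htwo : ∃ x : X, (stabilizer H x).index = 2
  · obtain ⟨x, hx⟩ := htwo
    exact Or.inr (Or.inl ⟨_, hx, hstab x, fun h hh => mul_self_eq_one_of_index_two hfix hx hh⟩)
  rcases subsingleton_or_nontrivial H with hH | hH
  · exact Or.inl inferInstance
  set P := polarPoints H X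
  haveI : Finite P := by
    have : ((⋃ h ∈ {h : H | h ≠ 1}, fixedBy X h) : Set X).Finite :=
      Set.Finite.biUnion (Set.toFinite _) fun h hh =>
        Set.finite_of_ncard_ne_zero (by rw [hfix h hh]; omega)
    refine Set.Finite.to_subtype (this.subset ?_)
    rintro x ⟨h, h1, hx⟩
    exact Set.mem_biUnion (x := h) h1 (mem_fixedBy.2 hx)
  haveI := Fintype.ofFinite P
  haveI := Fintype.ofFinite (orbitRel.Quotient H P)
  set Ω := orbitRel.Quotient H P
  set n : Ω → ℕ := fun ω => (stabilizer H ω.out).index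
  set e : Ω → ℕ := fun ω => Nat.card (stabilizer H ω.out)
  have hne : ∀ ω, n ω * e ω = Nat.card H := fun ω => (stabilizer H ω.out).index_mul_card
  have hstabP : ∀ p : P, stabilizer H p = stabilizer H (p : X) := fun p => by
    ext h
    simp only [mem_stabilizer_iff, Subtype.ext_iff, SetLike.val_smul]
  have he : ∀ ω, 2 ≤ e ω := fun ω => by
    obtain ⟨h, h1, hx⟩ := ω.out.2
    have : stabilizer H ω.out ≠ ⊥ := fun hb => h1 (Subgroup.mem_bot.1
      (hb ▸ (hstabP ω.out).symm ▸ mem_stabilizer_iff.2 hx))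
    exact (stabilizer H ω.out).one_lt_card_iff_ne_bot.2 this
  have hP : Nat.card P = ∑ ω, n ω := by
    rw [Nat.card_congr (selfEquivSigmaOrbitsQuotientStabilizer H P), Nat.card_sigma]
    rfl
  have hburn := sum_card_fixedBy_eq_card_orbits_mul_card_group H P
  have hfixP : ∀ h : H, h ≠ 1 → Nat.card (fixedBy P h) = 2 := fun h hh => by
    rw [← hfix h hh, ← Nat.card_coe_set_eq]
    refine Nat.card_congr ⟨fun p => ⟨p.1.1, by
      have := mem_fixedBy.1 p.2; exact congrArg Subtype.val this⟩,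
      fun x => ⟨⟨x.1, h, hh, mem_fixedBy.1 x.2⟩, Subtype.ext (mem_fixedBy.1 x.2)⟩,
      fun p => rfl, fun x => rfl⟩
  simp only [← Nat.card_eq_fintype_card] at hburn
  rw [← Finset.add_sum_erase _ _ (Finset.mem_univ (1 : H)),
    Finset.sum_congr rfl (fun h hh => hfixP h (Finset.ne_of_mem_erase hh)), Finset.sum_const,
    Finset.card_erase_of_mem (Finset.mem_univ _), Finset.card_univ, smul_eq_mul,
    ← Nat.card_eq_fintype_card (α := H),
    Nat.card_congr ((Equiv.setCongr (Set.eq_univ_of_forall (one_smul H) :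
      fixedBy P (1 : H) = Set.univ)).trans (Equiv.Set.univ _)), hP] at hburn
  set N := Nat.card H
  have hN : 2 ≤ N := Finite.one_lt_card
  have hNdef : Nat.card H = N := rfl
  replace hburn : ∑ ω, n ω + (N - 1) * 2 = Nat.card Ω * N := hburn
  clear_value N
  have hr : Nat.card Ω ≤ 3 := by
    have h1 : (∑ ω, n ω) * 2 ≤ Nat.card Ω * N := by
      rw [Finset.sum_mul, Nat.card_eq_fintype_card, ← Finset.card_univ, ← smul_eq_mul,
        ← Finset.sum_const]
      exact Finset.sum_le_sum fun ω _ => (Nat.mul_le_mul_left _ (he ω)).trans_eq (hne ω)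
    by_contra hlt
    have := Nat.mul_le_mul_right N (show 4 ≤ Nat.card Ω by omega)
    omega
  have hn1 : ∀ ω, n ω ≠ 1 := fun ω h1 =>
    htop ⟨_, (hstabP _).symm.trans (Subgroup.index_eq_one.1 h1)⟩
  have hn2 : ∀ ω, n ω ≠ 2 := fun ω h2 =>
    htwo ⟨(ω.out : X), by rw [← hstabP]; exact h2⟩
  have hn0 : ∀ ω, n ω ≠ 0 := fun ω => Subgroup.index_ne_zero_of_finite
  have horder : ∀ h : H, h ≠ 1 → ∃ ω, orderOf h ∣ e ω := fun h hh => by
    obtain ⟨x, hx⟩ := Set.nonempty_of_ncard_ne_zero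
      (by rw [hfix h hh]; omega : (fixedBy X h).ncard ≠ 0)
    set p : P := ⟨x, h, hh, mem_fixedBy.1 hx⟩
    refine ⟨Quotient.mk'' p, ?_⟩
    obtain ⟨g, hg⟩ : ∃ g : H, g • p = (Quotient.mk'' p : Ω).out :=
      orbitRel_apply.1 (Quotient.mk_out' (s₁ := orbitRel H P) p)
    simp only [e, ← hg, stabilizer_smul_eq_stabilizer_map_conj]
    rw [Nat.card_congr ((stabilizer H p).equivMapOfInjective _
      (MulAut.conj g).injective).toEquiv.symm]
    exact Subgroup.orderOf_dvd_natCard _ (by rw [hstabP]; exact mem_fixedBy.1 hx)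
  rw [Nat.card_eq_fintype_card] at hr
  rw [← Nat.card_eq_fintype_card (α := Ω)] at *
  obtain hc | hc : Nat.card Ω ≤ 2 ∨ Nat.card Ω = 3 := by omega
  · exfalso
    have hsum : Nat.card Ω * 3 ≤ ∑ ω, n ω := by
      rw [Nat.card_eq_fintype_card, ← Finset.card_univ, ← smul_eq_mul, ← Finset.sum_const]
      exact Finset.sum_le_sum fun ω _ => by have := hn0 ω; have := hn1 ω; have := hn2 ω; omega
    interval_cases Nat.card Ω <;> omega
  · have h3 : (Finset.univ : Finset Ω).card = 3 := by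
      rw [Finset.card_univ, ← Nat.card_eq_fintype_card, hc]
    obtain ⟨a, b, c, hab, hac, hbc, huniv⟩ := Finset.card_eq_three.1 h3
    rw [huniv, Finset.sum_insert (by simp [hab, hac]), Finset.sum_pair hbc, hc] at hburn
    have hmem : ∀ ω : Ω, ω = a ∨ ω = b ∨ ω = c := fun ω => by
      simpa [huniv] using Finset.mem_univ ω
    have h : ∀ k, k = e a ∨ k = e b ∨ k = e c →
        N = 12 ∧ k ≤ 3 ∨ N = 24 ∧ k ≤ 4 ∨ N = 60 ∧ (k ≤ 3 ∨ k = 5) := fun k hk =>
      triple (hne a) (hne b) (hne c) (he a) (he b) (he c) (by omega) (hn2 a) (hn2 b) (hn2 c) hk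
    have hord : ∀ g : H, orderOf g = 1 ∨ ∃ k, orderOf g ∣ k ∧
        (N = 12 ∧ k ≤ 3 ∨ N = 24 ∧ k ≤ 4 ∨ N = 60 ∧ (k ≤ 3 ∨ k = 5)) ∧ k ≠ 0 := fun g => by
      rcases eq_or_ne g 1 with rfl | hg
      · exact Or.inl orderOf_one
      obtain ⟨ω, hω⟩ := horder g hg
      refine Or.inr ⟨e ω, hω, h _ ?_, by have := he ω; omega⟩
      rcases hmem ω with rfl | rfl | rfl <;> simp
    rcases h _ (Or.inl rfl) with hN' | hN' | hN'
    · refine Or.inr (Or.inr (Or.inl ⟨Or.inl hN'.1, fun g => ?_⟩))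
      rcases hord g with h1 | ⟨k, hk, hk', hk0⟩
      · omega
      · intro h6
        have := Nat.le_of_dvd (by omega) hk
        omega
    · refine Or.inr (Or.inr (Or.inl ⟨Or.inr hN'.1, fun g => ?_⟩))
      rcases hord g with h1 | ⟨k, hk, hk', hk0⟩
      · omega
      · intro h6
        have := Nat.le_of_dvd (by omega) hk
        omega
    · refine Or.inr (Or.inr (Or.inr ⟨hN'.1, fun g => ?_⟩))
      rcases hord g with h1 | ⟨k, hk, hk', hk0⟩
      · simp [h1]
      · rcases (by omega : k ≤ 3 ∨ k = 5) with hk3 | rfl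
        · have hle : orderOf g ≤ 3 := (Nat.le_of_dvd (by omega) hk).trans hk3
          have hpos := orderOf_pos g
          interval_cases orderOf g <;> simp
        · rcases (Nat.dvd_prime (by decide : Nat.Prime 5)).1 hk with h1 | h1 <;> simp [h1]

end FA.Klein

end
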