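import Fermat.Agent.Klein.Polyhedral
import Fermat.Agent.Klein.PolarCounting
import Fermat.Agent.Solvable.Burnside
import Mathlib.LinearAlgebra.Projectivization.Action

/-!
# Klein's classification of the finite projective images in `GL₂`

Over an algebraically closed field a non-scalar element of finite order invertible in the field
fixes exactly two lines, and on the stabiliser of a line `A ↦ a² / det A`, with `a` the eigenvalue
there, embeds a finite projective group in the units. So the image in `PGL₂` of a finite subgroup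
of `GL₂` of order invertible in the field is cyclic, dihedral, `A₄`, `S₄` or `A₅`; in particular
this holds for every finite subgroup in characteristic zero.
-/

set_option autoImplicit false
set_option linter.style.haveILetI false

noncomputable section

open MulAction Matrix
open scoped MatrixGroups LinearAlgebra.Projectivization

namespace FA.Klein

variable {F : Type*} [Field F]

/-- An eigenvalue is a root of `X² - tr X + det`. -/
theorem eigen_relation {A : Matrix (Fin 2) (Fin 2) F} {v : Fin 2 → F} (hv : v ≠ 0) {a : F}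
    (h : A *ᵥ v = a • v) : a * a - A.trace * a + A.det = 0 := by
  have h0 : (A - a • (1 : Matrix (Fin 2) (Fin 2) F)) *ᵥ v = 0 := by
    rw [sub_mulVec, h, smul_mulVec, one_mulVec, sub_self]
  have hd := Matrix.exists_mulVec_eq_zero_iff.1 ⟨v, hv, h0⟩
  simp [Matrix.det_fin_two] at hd
  rw [Matrix.trace_fin_two, Matrix.det_fin_two]
  linear_combination hd

/-- Scalar matrices are central. -/
theorem mem_center_of_eq_smul {A : GL (Fin 2) F} {a : F}
    (h : (A : Matrix (Fin 2) (Fin 2) F) = a • 1) : A ∈ Subgroup.center (GL (Fin 2) F) :=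
  Subgroup.mem_center_iff.2 fun B => Units.ext (by rw [Units.val_mul, Units.val_mul, h]; simp)

/-- A matrix of invertible finite order with an eigenvalue whose square is the determinant is
scalar. -/
theorem mem_center_of_sq_eq_det {A : GL (Fin 2) F} {e : ℕ} (he : (e : F) ≠ 0)
    (hA : A ^ e = 1) {v : Fin 2 → F} (hv : v ≠ 0) {a : F}
    (h : (A : Matrix (Fin 2) (Fin 2) F) *ᵥ v = a • v)
    (hsq : a * a = (A : Matrix (Fin 2) (Fin 2) F).det) :
    A ∈ Subgroup.center (GL (Fin 2) F) := by
  set M := (A : Matrix (Fin 2) (Fin 2) F)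
  have hA' : M ^ e = 1 := by simp [M, ← Units.val_pow_eq_pow_val, hA]
  have ha : a ≠ 0 := fun h0 => by
    rw [h0, mul_zero] at hsq
    exact ((Matrix.isUnit_iff_isUnit_det M).1 A.isUnit).ne_zero hsq.symm
  have hpow : ∀ k, M ^ k *ᵥ v = a ^ k • v := fun k => by
    induction k with
    | zero => simp
    | succ k ih => rw [pow_succ, ← mulVec_mulVec, h, mulVec_smul, ih, smul_smul, pow_succ']
  have hae : a ^ e = 1 := by
    have := hpow e
    rw [hA', one_mulVec] at this
    exact smul_left_injective F hv (this.symm.trans (one_smul F v).symm)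
  have htr : M.trace = 2 * a := mul_right_cancel₀ ha <| by
    linear_combination -(eigen_relation hv h) - hsq
  set N := a⁻¹ • M - 1 with hN
  have hNN : N * N = 0 := by
    rw [Matrix.trace_fin_two] at htr
    rw [Matrix.det_fin_two] at hsq
    ext i j
    fin_cases i <;> fin_cases j <;> simp [hN, Matrix.mul_apply, Fin.sum_univ_two] <;> field_simp
    · linear_combination M 0 0 * htr + hsq
    · linear_combination M 0 1 * htr
    · linear_combination M 1 0 * htr
    · linear_combination M 1 1 * htr + hsq
  have hk : ∀ k : ℕ, (1 + N) ^ k = 1 + (k : F) • N := fun k => by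
    induction k with
    | zero => simp
    | succ k ih =>
      rw [pow_succ, ih, Nat.cast_succ, add_smul, one_smul, add_mul, mul_add, mul_add, one_mul,
        one_mul, mul_one, smul_mul_assoc, hNN, smul_zero, add_zero]
      abel
  have h1 : (1 + N) ^ e = 1 := by
    rw [hN, add_sub_cancel, smul_pow, hA', inv_pow, hae, inv_one, one_smul]
  rw [hk, add_eq_left, smul_eq_zero] at h1
  have hM : a⁻¹ • M = 1 := sub_eq_zero.1 (h1.resolve_left he)
  exact mem_center_of_eq_smul (a := a) (by rw [← hM, smul_smul, mul_inv_cancel₀ ha, one_smul])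

/-- A non-scalar matrix has at most one eigenline for each eigenvalue. -/
theorem eigenline_unique {A : GL (Fin 2) F} (hA : A ∉ Subgroup.center (GL (Fin 2) F))
    {v w : Fin 2 → F} (hv : v ≠ 0) (hw : w ≠ 0) {a : F}
    (h₁ : (A : Matrix (Fin 2) (Fin 2) F) *ᵥ v = a • v)
    (h₂ : (A : Matrix (Fin 2) (Fin 2) F) *ᵥ w = a • w) :
    Projectivization.mk F v hv = Projectivization.mk F w hw := by
  by_contra hne
  have hli : LinearIndependent F ![v, w] := (LinearIndependent.pair_iff' hv).2 fun c hc =>
    hne ((Projectivization.mk_eq_mk_iff' F w v hw hv).2 ⟨c, hc⟩).symm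
  refine hA (mem_center_of_eq_smul (a := a) ?_)
  apply Matrix.toLin'.injective
  refine LinearMap.ext_on_range (hli.span_eq_top_of_card_eq_finrank' (by simp)) fun i => ?_
  fin_cases i
  · simpa [Matrix.toLin'_apply, smul_mulVec] using h₁
  · simpa [Matrix.toLin'_apply, smul_mulVec] using h₂

/-- The projective class fixes a line iff it is an eigenline. -/
theorem mk_smul_eq_iff (A : GL (Fin 2) F) {v : Fin 2 → F} (hv : v ≠ 0) :
    (ProjGenLinGroup.mk A) • Projectivization.mk F v hv = Projectivization.mk F v hv ↔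
      ∃ a : F, (A : Matrix (Fin 2) (Fin 2) F) *ᵥ v = a • v := by
  rw [Projectivization.PGL.mk_smul_mk, Projectivization.mk_eq_mk_iff']
  exact ⟨fun ⟨a, ha⟩ => ⟨a, ha.symm⟩, fun ⟨a, ha⟩ => ⟨a, ha.symm⟩⟩

/-- **Two fixed lines.** -/
theorem ncard_fixed_lines [IsAlgClosed F] {A : GL (Fin 2) F} {e : ℕ} (he : (e : F) ≠ 0)
    (hA : A ^ e = 1) (hA' : A ∉ Subgroup.center (GL (Fin 2) F)) :
    {x : ℙ F (Fin 2 → F) | ProjGenLinGroup.mk A • x = x}.ncard = 2 := by
  set M := (A : Matrix (Fin 2) (Fin 2) F)
  obtain ⟨a, ha⟩ := IsAlgClosed.exists_root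
    (Polynomial.C 1 * Polynomial.X ^ 2 + Polynomial.C (-M.trace) * Polynomial.X +
      Polynomial.C M.det) (by rw [Polynomial.degree_quadratic one_ne_zero]; decide)
  simp only [Polynomial.IsRoot.def, Polynomial.eval_add, Polynomial.eval_mul, Polynomial.eval_C,
    Polynomial.eval_pow, Polynomial.eval_X, one_mul] at ha
  have hex : ∀ c : F, c * c - M.trace * c + M.det = 0 → ∃ v, v ≠ 0 ∧ M *ᵥ v = c • v :=
    fun c hc => by
    obtain ⟨v, hv, h0⟩ := Matrix.exists_mulVec_eq_zero_iff.2
      (show (M - c • (1 : Matrix (Fin 2) (Fin 2) F)).det = 0 by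
        rw [Matrix.trace_fin_two, Matrix.det_fin_two] at hc
        simp [Matrix.det_fin_two]
        linear_combination hc)
    rw [sub_mulVec, smul_mulVec, one_mulVec, sub_eq_zero] at h0
    exact ⟨v, hv, h0⟩
  set b := M.trace - a with hb
  have hab : a * b = M.det := by rw [hb]; linear_combination -ha
  have hsum : a + b = M.trace := by rw [hb]; ring
  obtain ⟨u, hu, hua⟩ := hex a (by linear_combination -hab + a * hsum)
  obtain ⟨w, hw, hwb⟩ := hex b (by linear_combination -hab + b * hsum)
  have hne : a ≠ b := fun h => hA' (mem_center_of_sq_eq_det he hA hu hua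
    (by linear_combination hab + a * h))
  refine Set.ncard_eq_two.2
    ⟨Projectivization.mk F u hu, Projectivization.mk F w hw, fun h => ?_, ?_⟩
  · obtain ⟨c, hc⟩ := (Projectivization.mk_eq_mk_iff' F u w hu hw).1 h
    have : (b - a) • u = 0 := by
      have h1 : M *ᵥ u = b • u := by rw [← hc, mulVec_smul, hwb, smul_comm]
      rw [sub_smul, ← h1, hua, sub_self]
    rcases smul_eq_zero.1 this with h0 | h0
    · exact hne (sub_eq_zero.1 h0).symm
    · exact hu h0
  · ext x
    induction x using Projectivization.ind with | _ v hv => ?_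
    simp only [Set.mem_ofPred_eq, Set.mem_insert_iff, Set.mem_singleton_iff]
    constructor
    · intro h
      obtain ⟨c, hc⟩ := (mk_smul_eq_iff A hv).1 h
      have hz : (c - a) * (c - b) = 0 := by
        linear_combination eigen_relation hv hc + hab - c * hsum
      rcases mul_eq_zero.1 hz with h0 | h0
      · exact Or.inl (eigenline_unique hA' hv hu hc (sub_eq_zero.1 h0 ▸ hua))
      · exact Or.inr (eigenline_unique hA' hv hw hc (sub_eq_zero.1 h0 ▸ hwb))
    · rintro (h | h) <;> rw [h]
      · exact (mk_smul_eq_iff A hu).2 ⟨a, hua⟩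
      · exact (mk_smul_eq_iff A hw).2 ⟨b, hwb⟩

/-- `a² / det` depends on the projective class only. -/
theorem ratio_unique {A B : GL (Fin 2) F} (hAB : ProjGenLinGroup.mk A = ProjGenLinGroup.mk B)
    {v : Fin 2 → F} (hv : v ≠ 0) {a b : F} (ha : (A : Matrix (Fin 2) (Fin 2) F) *ᵥ v = a • v)
    (hb : (B : Matrix (Fin 2) (Fin 2) F) *ᵥ v = b • v) :
    a * a / (A : Matrix (Fin 2) (Fin 2) F).det = b * b / (B : Matrix (Fin 2) (Fin 2) F).det := by
  obtain ⟨u, hu⟩ := ProjGenLinGroup.mk_eq_mk_iff.1 hAB
  have hB : (B : Matrix (Fin 2) (Fin 2) F) = (u : F) • (A : Matrix (Fin 2) (Fin 2) F) := by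
    rw [← hu, Units.val_mul, GeneralLinearGroup.coe_scalar]
    simp [Matrix.scalar_apply, ← Matrix.smul_one_eq_diagonal]
  have hbu : b = u * a := smul_left_injective F hv <| by
    simp only
    rw [← hb, hB, smul_mulVec, ha, smul_smul]
  rw [hB, hbu, Matrix.det_smul, Fintype.card_fin, show (u : F) * a * ((u : F) * a) =
    (u : F) ^ 2 * (a * a) by ring, mul_div_mul_left _ _ (pow_ne_zero 2 u.ne_zero)]

/-- **The polar cases** for the image of a finite group in `PGL₂` over an algebraically closed
field in which the order of the group is invertible. -/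
theorem image_cases [IsAlgClosed F] {G : Type*} [Group G] [Finite G]
    (f : G →* GL (Fin 2) F) (hG : (Nat.card G : F) ≠ 0) :
    let H := (ProjGenLinGroup.mk.comp f).range
    IsCyclic H ∨ (∃ C : Subgroup H, C.index = 2 ∧ IsCyclic C ∧ ∀ h ∉ C, h * h = 1) ∨
      ((Nat.card H = 12 ∨ Nat.card H = 24) ∧ ∀ h : H, orderOf h ≠ 6) ∨
      (Nat.card H = 60 ∧ ∀ h : H, orderOf h ∈ ({1, 2, 3, 5} : Finset ℕ)) := by
  intro H
  haveI : Finite H := Finite.of_surjective _ (ProjGenLinGroup.mk.comp f).rangeRestrict_surjective
  have hpow : ∀ g, f g ^ Nat.card G = 1 := fun g => by rw [← map_pow, pow_card_eq_one', map_one]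
  refine polar_cases (X := ℙ F (Fin 2 → F)) (fun h hh => ?_) fun x => ?_
  · obtain ⟨_, g, rfl⟩ := h
    exact ncard_fixed_lines hG (hpow g) fun hc =>
      hh (Subtype.ext (ProjGenLinGroup.mk_eq_one.2 hc))
  induction x using Projectivization.ind with | _ v hv => ?_
  set S := stabilizer H (Projectivization.mk F v hv)
  have hlift : ∀ s : S, ∃ g : G, ∃ a : F,
      ProjGenLinGroup.mk (f g) = ((s : H) : PGL(Fin 2, F)) ∧
        (f g : Matrix (Fin 2) (Fin 2) F) *ᵥ v = a • v := fun s => by
    obtain ⟨g, hg⟩ := (s : H).2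
    have h1 : ((s : H) : PGL(Fin 2, F)) • Projectivization.mk F v hv = _ := mem_stabilizer_iff.1 s.2
    rw [← hg] at h1
    obtain ⟨a, ha⟩ := (mk_smul_eq_iff (f g) hv).1 h1
    exact ⟨g, a, hg, ha⟩
  choose g a hg ha using hlift
  have hd : ∀ s, (f (g s) : Matrix (Fin 2) (Fin 2) F).det ≠ 0 := fun s =>
    ((Matrix.isUnit_iff_isUnit_det _).1 (f (g s)).isUnit).ne_zero
  have ha0 : ∀ s, a s ≠ 0 := fun s h0 => by
    have h1 := eigen_relation hv (ha s)
    rw [h0, mul_zero, mul_zero, sub_zero, zero_add] at h1
    exact hd s h1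
  set χ : S →* Fˣ := MonoidHom.mk'
    (fun s => Units.mk0 (a s * a s / (f (g s) : Matrix (Fin 2) (Fin 2) F).det)
      (div_ne_zero (mul_ne_zero (ha0 s) (ha0 s)) (hd s)))
    fun s t => by
      have h1 : (f (g s * g t) : Matrix (Fin 2) (Fin 2) F) *ᵥ v = (a s * a t) • v := by
        rw [map_mul, Units.val_mul, ← mulVec_mulVec, ha, mulVec_smul, ha, smul_smul, mul_comm]
      refine Units.ext ?_
      rw [Units.val_mul, Units.val_mk0, Units.val_mk0, Units.val_mk0,
        ratio_unique (A := f (g (s * t))) (B := f (g s * g t))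
          (by rw [hg, map_mul, map_mul, hg, hg]; rfl) hv (ha _) h1,
        map_mul, Units.val_mul, Matrix.det_mul, div_mul_div_comm, mul_mul_mul_comm]
  refine isCyclic_of_injective_ringHom ((Units.coeHom F).comp χ)
    (Units.val_injective.comp ((injective_iff_map_eq_one χ).2 fun s hs => ?_))
  have hs' : a s * a s / (f (g s) : Matrix (Fin 2) (Fin 2) F).det = 1 := congrArg Units.val hs
  have hc := mem_center_of_sq_eq_det hG (hpow (g s)) hv (ha s)
    ((div_eq_one_iff_eq (hd s)).1 hs')
  exact Subtype.ext (Subtype.ext ((hg s).symm.trans (ProjGenLinGroup.mk_eq_one.2 hc)))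

/-- A field extension embeds `PGL₂`. -/
theorem map_injective {K : Type*} [Field K] (i : K →+* F) :
    Function.Injective (ProjGenLinGroup.map (n := Fin 2) i) := by
  refine (injective_iff_map_eq_one _).2 fun x hx => ?_
  induction x using Matrix.ProjGenLinGroup.induction_on with | mk A => ?_
  rw [ProjGenLinGroup.map_mk, ProjGenLinGroup.mk_eq_one, Subgroup.mem_center_iff] at hx
  refine ProjGenLinGroup.mk_eq_one.2 (Subgroup.mem_center_iff.2 fun B => ?_)
  have h := hx (GeneralLinearGroup.map i B)
  rw [← map_mul, ← map_mul] at h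
  exact Units.ext (Matrix.map_injective i.injective (congrArg Units.val h))

/-- **Klein's classification** of the projective images of groups of order invertible in the
field. -/
theorem klein_range_invertible {K : Type*} [Field K] {G : Type*} [Group G] [Finite G]
    (f : G →* GL (Fin 2) K) (hG : (Nat.card G : K) ≠ 0) :
    let H := (ProjGenLinGroup.mk.comp f).range
    IsCyclic H ∨ (∃ n, Nonempty (H ≃* DihedralGroup n)) ∨
      Nonempty (H ≃* alternatingGroup (Fin 4)) ∨ Nonempty (H ≃* Equiv.Perm (Fin 4)) ∨
      Nonempty (H ≃* alternatingGroup (Fin 5)) := by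
  intro H
  set i := algebraMap K (AlgebraicClosure K)
  set H' := (ProjGenLinGroup.mk.comp ((GeneralLinearGroup.map i).comp f)).range
  haveI : Finite H' := Finite.of_surjective _ (MonoidHom.rangeRestrict_surjective _)
  obtain ⟨φ⟩ : Nonempty (H' ≃* H) := by
    have he : H' = H.map (ProjGenLinGroup.map (n := Fin 2) i) := by
      rw [MonoidHom.map_range]
      rfl
    exact ⟨(MulEquiv.subgroupCongr he).trans
      (Subgroup.equivMapOfInjective H _ (map_injective i)).symm⟩
  rcases image_cases ((GeneralLinearGroup.map i).comp f)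
    (by rw [← map_natCast i, map_ne_zero]; exact hG) with
    h | ⟨C, hC, hcyc, hout⟩ | ⟨hN, h6⟩ | ⟨hN, hord⟩
  · exact Or.inl (isCyclic_of_surjective φ φ.surjective)
  · obtain ⟨e⟩ := nonempty_equiv_dihedral hC hout
    exact Or.inr (Or.inl ⟨_, ⟨φ.symm.trans e⟩⟩)
  · rcases hN with hN | hN
    · obtain ⟨e⟩ := nonempty_equiv_alternating_four hN h6
      exact Or.inr (Or.inr (Or.inl ⟨φ.symm.trans e⟩))
    · obtain ⟨e⟩ := nonempty_equiv_perm_four hN h6
      exact Or.inr (Or.inr (Or.inr (Or.inl ⟨φ.symm.trans e⟩)))
  · obtain ⟨e⟩ := nonempty_equiv_alternating_five hN hord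
    exact Or.inr (Or.inr (Or.inr (Or.inr ⟨φ.symm.trans e⟩)))

/-- **Klein's classification** of the projective images of finite groups in `GL₂`. -/
theorem klein_range {K : Type*} [Field K] [CharZero K] {G : Type*} [Group G] [Finite G]
    (f : G →* GL (Fin 2) K) :
    let H := (ProjGenLinGroup.mk.comp f).range
    IsCyclic H ∨ (∃ n, Nonempty (H ≃* DihedralGroup n)) ∨
      Nonempty (H ≃* alternatingGroup (Fin 4)) ∨ Nonempty (H ≃* Equiv.Perm (Fin 4)) ∨
      Nonempty (H ≃* alternatingGroup (Fin 5)) :=
  klein_range_invertible f (Nat.cast_ne_zero.2 Nat.card_pos.ne')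

/-- `A₅` is not solvable. -/
theorem not_isSolvable_alternating_five : ¬ Group.IsSolvable (alternatingGroup (Fin 5)) :=
  fun h => Equiv.Perm.not_isSolvable_fin_5 <| by
    haveI := h
    exact Group.isSolvable_of_ker_le_range (alternatingGroup (Fin 5)).subtype Equiv.Perm.sign
      (by rw [Subgroup.range_subtype]; exact le_of_eq rfl)

/-- Dihedral groups are solvable. -/
theorem isSolvable_dihedral (n : ℕ) : Group.IsSolvable (DihedralGroup n) := by
  set f : Multiplicative (ZMod n) →* DihedralGroup n :=
    MonoidHom.mk' (fun i => DihedralGroup.r i.toAdd) fun i j => rfl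
  set g : DihedralGroup n →* Multiplicative (ZMod 2) :=
    MonoidHom.mk' (fun x => match x with
      | DihedralGroup.r _ => 1
      | DihedralGroup.sr _ => Multiplicative.ofAdd 1) (by
        rintro (i | i) (j | j)
        all_goals first | rfl | exact (by decide : (1 : Multiplicative (ZMod 2)) =
          Multiplicative.ofAdd 1 * Multiplicative.ofAdd 1))
  refine Group.isSolvable_of_ker_le_range f g ?_
  rintro (i | i) hx
  · exact ⟨Multiplicative.ofAdd i, rfl⟩
  · exact absurd (MonoidHom.mem_ker.1 hx) (by simp [g])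

/-- **Solvable images**: exactly those that are not icosahedral. -/
theorem range_solvable_iff_invertible {K : Type*} [Field K] {G : Type*} [Group G] [Finite G]
    (f : G →* GL (Fin 2) K) (hG : (Nat.card G : K) ≠ 0) :
    Group.IsSolvable f.range ↔
      ¬ Nonempty ((ProjGenLinGroup.mk.comp f).range ≃* alternatingGroup (Fin 5)) := by
  set π : f.range →* PGL(Fin 2, K) := ProjGenLinGroup.mk.comp f.range.subtype
  have hπ : π.range = (ProjGenLinGroup.mk.comp f).range := by
    rw [MonoidHom.range_comp, Subgroup.range_subtype, ← MonoidHom.range_comp]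
  constructor
  · rintro hs ⟨e⟩
    haveI := hs
    haveI := Group.isSolvable_of_surjective π.rangeRestrict_surjective
    refine not_isSolvable_alternating_five (Group.isSolvable_of_surjective (G := π.range)
      (f := ((MulEquiv.subgroupCongr hπ).trans e).toMonoidHom) ?_)
    exact ((MulEquiv.subgroupCongr hπ).trans e).surjective
  · intro hne
    haveI hH : Group.IsSolvable π.range := by
      obtain h | ⟨n, ⟨e⟩⟩ | ⟨⟨e⟩⟩ | ⟨⟨e⟩⟩ | h := klein_range_invertible f hG
      · rw [← hπ] at h
        letI := h.commGroup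
        exact Group.isSolvable_of_comm fun x y => mul_comm x y
      · haveI := isSolvable_dihedral n
        exact Group.isSolvable_of_isSolvable_injective
          (f := ((MulEquiv.subgroupCongr hπ).trans e).toMonoidHom) (MulEquiv.injective _)
      · haveI : Group.IsSolvable (alternatingGroup (Fin 4)) :=
          FA.Solvable.isSolvable_of_dvd Nat.prime_two Nat.prime_three 2 1 _
            (by rw [nat_card_alternatingGroup, Nat.card_fin]; rfl)
        exact Group.isSolvable_of_isSolvable_injective
          (f := ((MulEquiv.subgroupCongr hπ).trans e).toMonoidHom) (MulEquiv.injective _)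
      · haveI : Group.IsSolvable (Equiv.Perm (Fin 4)) :=
          FA.Solvable.isSolvable_of_dvd Nat.prime_two Nat.prime_three 3 1 _
            (by rw [Nat.card_perm, Nat.card_fin]; rfl)
        exact Group.isSolvable_of_isSolvable_injective
          (f := ((MulEquiv.subgroupCongr hπ).trans e).toMonoidHom) (MulEquiv.injective _)
      · exact absurd h hne
    haveI : Group.IsSolvable π.ker := Group.isSolvable_of_comm fun x y => by
      have hx : ((x : f.range) : GL (Fin 2) K) ∈ Subgroup.center (GL (Fin 2) K) :=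
        ProjGenLinGroup.mk_eq_one.1 (MonoidHom.mem_ker.1 x.2)
      exact Subtype.ext (Subtype.ext ((Subgroup.mem_center_iff.1 hx _).symm))
    exact Group.isSolvable_of_ker_le_range π.ker.subtype π.rangeRestrict
      (by rw [Subgroup.range_subtype, MonoidHom.ker_rangeRestrict])

/-- **Solvable images** in characteristic zero. -/
theorem range_solvable_iff {K : Type*} [Field K] [CharZero K] {G : Type*} [Group G] [Finite G]
    (f : G →* GL (Fin 2) K) :
    Group.IsSolvable f.range ↔
      ¬ Nonempty ((ProjGenLinGroup.mk.comp f).range ≃* alternatingGroup (Fin 5)) :=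
  range_solvable_iff_invertible f (Nat.cast_ne_zero.2 Nat.card_pos.ne')

end FA.Klein

end
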